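import Mathlib.Analysis.BoxIntegral.UnitPartition
import Mathlib.NumberTheory.ArithmeticFunction.Moebius
import Mathlib.NumberTheory.LSeries.RiemannZeta
import Mathlib.NumberTheory.LSeries.Dirichlet
import Mathlib.Analysis.Normed.Group.Tannery

/-!
# Primitive lattice points in dilates of a star body

For a bounded star body `S` in `ℝ ^ n`, `n ≥ 2`, the primitive points `z` with `t z ∈ S` number
`t ^ (-n) (vol S / ζ n + o 1)`: Möbius inversion and dominated convergence.
-/

set_option autoImplicit false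

noncomputable section

open Filter Topology MeasureTheory Bornology Submodule
open scoped Pointwise ArithmeticFunction.Moebius

namespace FA.MinkowskiHlawka

variable {n : ℕ}

/-- The real vector of an integer vector. -/
def castVec (z : Fin n → ℤ) : Fin n → ℝ := fun i => (z i : ℝ)

theorem castVec_injective : Function.Injective (castVec (n := n)) := fun _ _ h =>
  funext fun i => Int.cast_injective (congrFun h i)

/-- The greatest common divisor of the coordinates. -/
def content (z : Fin n → ℤ) : ℕ := Finset.univ.gcd fun i => (z i).natAbs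

theorem dvd_content_iff {d : ℕ} {z : Fin n → ℤ} : d ∣ content z ↔ ∀ i, (d : ℤ) ∣ z i := by
  simp [content, Finset.dvd_gcd_iff, Int.natCast_dvd]

theorem content_eq_zero {z : Fin n → ℤ} : content z = 0 ↔ z = 0 := by
  simp [content, Finset.gcd_eq_zero_iff, funext_iff]

/-- The nonzero integer points of `t⁻¹ S`. -/
def pts (S : Set (Fin n → ℝ)) (t : ℝ) : Set (Fin n → ℤ) :=
  {z | z ≠ 0 ∧ t • castVec z ∈ S}

/-- The primitive ones. -/
def prim (S : Set (Fin n → ℝ)) (t : ℝ) : Set (Fin n → ℤ) :=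
  {z | content z = 1 ∧ t • castVec z ∈ S}

variable {S : Set (Fin n → ℝ)}

theorem abs_coord_le {R : ℝ} (hR : ∀ x ∈ S, ‖x‖ ≤ R) {t : ℝ} (ht : 0 < t) {z : Fin n → ℤ}
    (hz : t • castVec z ∈ S) (i : Fin n) : |(z i : ℝ)| ≤ R / t := by
  have h := (norm_le_pi_norm (t • castVec z) i).trans (hR _ hz)
  rw [Pi.smul_apply, Real.norm_eq_abs, smul_eq_mul, abs_mul, abs_of_pos ht] at h
  rw [le_div_iff₀ ht, mul_comm]
  exact h

theorem pts_finite (hb : IsBounded S) {t : ℝ} (ht : 0 < t) : (pts S t).Finite := by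
  obtain ⟨R, hR⟩ := hb.exists_norm_le
  refine (Set.Finite.pi fun _ : Fin n => Set.finite_Icc (-⌊R / t⌋) ⌊R / t⌋).subset
    fun z hz i _ => ?_
  have h := abs_coord_le hR ht hz.2 i
  rw [abs_le] at h
  exact ⟨neg_le.1 (Int.le_floor.2 (by push_cast; linarith [h.1])), Int.le_floor.2 h.2⟩

theorem prim_subset (S : Set (Fin n → ℝ)) (t : ℝ) : prim S t ⊆ pts S t := fun _ hz =>
  ⟨fun h => one_ne_zero (hz.1.symm.trans (content_eq_zero.2 h)), hz.2⟩

theorem ncard_pts_le (hb : IsBounded S) :
    ∃ C : ℝ, ∀ t : ℝ, 0 < t → ((pts S t).ncard : ℝ) * t ^ n ≤ C := by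
  obtain ⟨R, hR⟩ := hb.exists_norm_le
  refine ⟨(3 * |R|) ^ n, fun t ht => ?_⟩
  rcases lt_or_ge (R / t) 1 with h | h
  · have he : pts S t = ∅ := Set.eq_empty_iff_forall_notMem.2 fun z hz => hz.1 (funext fun i => by
      have h1 := (abs_coord_le hR ht hz.2 i).trans_lt h
      have h2 : |z i| < 1 := by exact_mod_cast h1
      exact Int.abs_lt_one_iff.1 h2)
    rw [he, Set.ncard_empty, Nat.cast_zero, zero_mul]
    positivity
  · set k := ⌊R / t⌋
    have hk : 0 ≤ k := Int.floor_nonneg.2 (by linarith)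
    have hsub : pts S t ⊆ Fintype.piFinset (fun _ : Fin n => Finset.Icc (-k) k) := fun z hz => by
      simp only [Finset.mem_coe, Fintype.mem_piFinset, Finset.mem_Icc]
      intro i
      have h := abs_coord_le hR ht hz.2 i
      rw [abs_le] at h
      exact ⟨neg_le.1 (Int.le_floor.2 (by push_cast; linarith [h.1])), Int.le_floor.2 h.2⟩
    have hcard := (Set.ncard_le_ncard hsub (Finset.finite_toSet _)).trans_eq
      (by rw [Set.ncard_coe_finset, Fintype.card_piFinset, Finset.prod_const, Finset.card_univ,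
        Fintype.card_fin, Int.card_Icc])
    calc ((pts S t).ncard : ℝ) * t ^ n
        ≤ ((k + 1 - -k).toNat : ℝ) ^ n * t ^ n :=
          mul_le_mul_of_nonneg_right (by exact_mod_cast hcard) (by positivity)
      _ = (((k + 1 - -k).toNat : ℝ) * t) ^ n := (mul_pow _ _ _).symm
      _ ≤ (3 * |R|) ^ n := by
          refine pow_le_pow_left₀ (by positivity) ?_ n
          have hkR : (k : ℝ) ≤ R / t := Int.floor_le _
          have hc : (((k + 1 - -k).toNat : ℕ) : ℝ) = 2 * k + 1 := by
            rw [← Int.cast_natCast, Int.toNat_of_nonneg (by omega)]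
            push_cast
            ring
          rw [hc]
          have : R / t * t = R := div_mul_cancel₀ _ ht.ne'
          nlinarith [le_abs_self R]

theorem card_inter_smul_span (S : Set (Fin n → ℝ)) {x : ℝ} (hx : 0 < x) :
    Nat.card ↑(S ∩ x⁻¹ • (span ℤ (Set.range (Pi.basisFun ℝ (Fin n))) : Set (Fin n → ℝ))) =
      {z : Fin n → ℤ | x⁻¹ • castVec z ∈ S}.ncard := by
  have hinj : Function.Injective fun z : Fin n → ℤ => x⁻¹ • castVec z :=
    fun a b h => castVec_injective (smul_right_injective _ (inv_ne_zero hx.ne') h)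
  rw [Nat.card_coe_set_eq, ← Set.ncard_image_of_injective _ hinj]
  congr 1
  ext y
  constructor
  · rintro ⟨hyS, v, hv, rfl⟩
    rw [SetLike.mem_coe, Module.Basis.mem_span_iff_repr_mem] at hv
    choose z hz using hv
    have e : castVec z = v := funext fun i => by simpa [castVec] using hz i
    exact ⟨z, by simpa [e] using hyS, by simp [e]⟩
  · rintro ⟨z, hz, rfl⟩
    refine ⟨hz, Set.smul_mem_smul_set ?_⟩
    rw [SetLike.mem_coe, Module.Basis.mem_span_iff_repr_mem]
    exact fun i => ⟨z i, by simp [castVec]⟩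

/-- The hypotheses on the body. -/
structure IsStarBody (S : Set (Fin n → ℝ)) : Prop where
  bounded : IsBounded S
  meas : MeasurableSet S
  frontier_null : volume (frontier S) = 0
  star : ∀ x ∈ S, ∀ r : ℝ, 0 < r → r ≤ 1 → r • x ∈ S

theorem tendsto_pts (hn : 0 < n) (hS : IsStarBody S) :
    Tendsto (fun t : ℝ => ((pts S t).ncard : ℝ) * t ^ n) (𝓝[>] 0) (𝓝 (volume.real S)) := by
  have hmono : ∀ ⦃x y : ℝ⦄, 0 < x → x ≤ y → x • S ⊆ y • S := by
    rintro x y hx hxy _ ⟨a, ha, rfl⟩
    have hy : 0 < y := hx.trans_le hxy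
    refine ⟨(x / y) • a, hS.star a ha _ (div_pos hx hy) ((div_le_one hy).2 hxy), ?_⟩
    show y • (x / y) • a = x • a
    rw [smul_smul, mul_div_cancel₀ _ hy.ne']
  have h := (tendsto_card_div_pow_atTop_volume' S hS.bounded hS.meas hS.frontier_null hmono).comp
    tendsto_inv_nhdsGT_zero
  have h0 : Tendsto (fun t : ℝ => t ^ n) (𝓝[>] 0) (𝓝 0) := by
    simpa [zero_pow hn.ne'] using ((continuous_pow n).tendsto (0 : ℝ)).mono_left nhdsWithin_le_nhds
  classical
  have h' := h.sub (h0.const_mul (if (0 : Fin n → ℝ) ∈ S then (1 : ℝ) else 0))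
  rw [mul_zero, sub_zero] at h'
  refine h'.congr' ?_
  filter_upwards [self_mem_nhdsWithin] with t ht
  have ht' : (0 : ℝ) < t := ht
  rw [Function.comp_apply, Fintype.card_fin, inv_pow, div_inv_eq_mul]
  rw [card_inter_smul_span S (inv_pos.2 ht'), inv_inv]
  have hfin := pts_finite hS.bounded ht'
  have hc0 : castVec (0 : Fin n → ℤ) = 0 := funext fun i => by simp [castVec]
  split_ifs with h0S
  · have e : {z : Fin n → ℤ | t • castVec z ∈ S} = insert 0 (pts S t) := by
      ext z
      rcases eq_or_ne z 0 with rfl | hz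
      · simp [hc0, h0S]
      · simp [pts, hz]
    rw [e, Set.ncard_insert_of_notMem (fun h => h.1 rfl) hfin]
    push_cast
    ring
  · have e : {z : Fin n → ℤ | t • castVec z ∈ S} = pts S t := by
      ext z
      rcases eq_or_ne z 0 with rfl | hz
      · simp [pts, hc0, h0S]
      · simp [pts, hz]
    rw [e]
    ring

theorem ncard_pts_dvd (S : Set (Fin n → ℝ)) {t : ℝ} {d : ℕ} (hd : d ≠ 0) :
    (pts S ((d : ℝ) * t)).ncard = {z ∈ pts S t | d ∣ content z}.ncard := by
  have hdZ : (d : ℤ) ≠ 0 := Int.natCast_ne_zero.2 hd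
  have hcast : ∀ z : Fin n → ℤ, castVec ((d : ℤ) • z) = (d : ℝ) • castVec z := fun z => by
    ext i; simp [castVec]
  refine Set.ncard_congr (fun z _ => (d : ℤ) • z) (fun z hz => ⟨⟨fun h => hz.1 ?_, ?_⟩, ?_⟩)
    (fun a b _ _ h => funext fun i => mul_left_cancel₀ hdZ (congrFun h i)) fun y hy => ?_
  · exact funext fun i => by simpa [hdZ, hd] using congrFun h i
  · rw [hcast, smul_smul, mul_comm]; exact hz.2
  · exact dvd_content_iff.2 fun i => dvd_mul_right _ _
  · choose w hw using dvd_content_iff.1 hy.2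
    refine ⟨w, ⟨fun h => hy.1.1 (funext fun i => by simp [hw i, h]), ?_⟩, funext fun i => ?_⟩
    · rw [mul_comm, ← smul_smul, ← hcast]
      convert hy.1.2 using 3
      exact funext fun i => (hw i).symm
    · exact (hw i).symm

theorem tsum_moebius_pts (hb : IsBounded S) {t : ℝ} (ht : 0 < t) :
    ∑' d : ℕ, (μ d : ℝ) * ((pts S ((d : ℝ) * t)).ncard : ℝ) = ((prim S t).ncard : ℝ) := by
  classical
  set F := (pts_finite hb ht).toFinset with hF
  have hmem : ∀ z, z ∈ F ↔ z ∈ pts S t := fun z => Set.Finite.mem_toFinset _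
  have hA : ∀ d : ℕ, (μ d : ℝ) * ((pts S ((d : ℝ) * t)).ncard : ℝ) =
      ∑ z ∈ F, if d ∣ content z then (μ d : ℝ) else 0 := fun d => by
    rcases eq_or_ne d 0 with rfl | hd
    · simp
    rw [ncard_pts_dvd S hd, ← Finset.sum_filter, Finset.sum_const, nsmul_eq_mul, mul_comm,
      ← Set.ncard_coe_finset]
    congr 3
    ext z
    simp [hmem]
  have hne : ∀ z ∈ F, content z ≠ 0 := fun z hz h => ((hmem z).1 hz).1 (content_eq_zero.1 h)
  have hsum : ∀ z ∈ F, HasSum (fun d : ℕ => if d ∣ content z then (μ d : ℝ) else 0)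
      (if content z = 1 then 1 else 0) := fun z hz => by
    have h1 : ∑ d ∈ (content z).divisors, (μ d : ℝ) = if content z = 1 then 1 else 0 := by
      have := congrArg (fun f : ArithmeticFunction ℤ => f (content z))
        ArithmeticFunction.moebius_mul_coe_zeta
      simp only [ArithmeticFunction.coe_mul_zeta_apply, ArithmeticFunction.one_apply] at this
      exact_mod_cast this
    rw [← h1, Finset.sum_congr rfl fun d hd => (if_pos (Nat.dvd_of_mem_divisors hd) :
      (if d ∣ content z then (μ d : ℝ) else 0) = _).symm]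
    refine hasSum_sum_of_ne_finset_zero fun d hd => if_neg fun h => hd ?_
    exact Nat.mem_divisors.2 ⟨h, hne z hz⟩
  rw [((hasSum_sum hsum).congr_fun hA).tsum_eq, ← Finset.sum_filter, Finset.sum_const,
    nsmul_eq_mul, mul_one, ← Set.ncard_coe_finset]
  congr 2
  ext z
  simp only [Finset.coe_filter, Set.mem_ofPred_eq, hmem]
  exact ⟨fun h => ⟨h.2, h.1.2⟩, fun h => ⟨prim_subset S t h, h.1⟩⟩

/-- `ζ n` as a real series. -/
def zetaNat (n : ℕ) : ℝ := ∑' m : ℕ, 1 / (m : ℝ) ^ n

theorem zetaNat_pos (hn : 1 < n) : 0 < zetaNat n :=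
  (Real.summable_one_div_nat_pow.2 hn).tsum_pos (fun m => by positivity) 1 (by simp)

theorem riemannZeta_eq_zetaNat (hn : 1 < n) : riemannZeta n = (zetaNat n : ℂ) := by
  rw [zeta_nat_eq_tsum_of_gt_one hn, zetaNat, Complex.ofReal_tsum]
  exact tsum_congr fun m => by push_cast; rfl

theorem tsum_moebius_div_pow (hn : 1 < n) :
    ∑' d : ℕ, (μ d : ℝ) / (d : ℝ) ^ n = (zetaNat n)⁻¹ := by
  have hre : 1 < (n : ℂ).re := by simpa using hn
  have h := ArithmeticFunction.LSeries_zeta_mul_Lseries_moebius hre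
  rw [ArithmeticFunction.LSeries_zeta_eq_riemannZeta hre, riemannZeta_eq_zetaNat hn] at h
  refine eq_inv_of_mul_eq_one_left (Complex.ofReal_injective ?_)
  rw [Complex.ofReal_mul, Complex.ofReal_tsum, Complex.ofReal_one, mul_comm, ← h, LSeries]
  congr 1
  refine tsum_congr fun d => ?_
  rcases eq_or_ne d 0 with rfl | hd
  · simp
  · rw [LSeries.term_of_ne_zero hd, Complex.cpow_natCast]
    push_cast
    rfl

/-- **Primitive points.** -/
theorem tendsto_prim (hn : 2 ≤ n) (hS : IsStarBody S) :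
    Tendsto (fun t : ℝ => ((prim S t).ncard : ℝ) * t ^ n) (𝓝[>] 0)
      (𝓝 (volume.real S / zetaNat n)) := by
  obtain ⟨C, hC⟩ := ncard_pts_le hS.bounded
  have hC0 : 0 ≤ C := le_trans (by positivity) (hC 1 one_pos)
  have hlim : volume.real S / zetaNat n = ∑' d : ℕ, (μ d : ℝ) / (d : ℝ) ^ n * volume.real S := by
    rw [tsum_mul_right, tsum_moebius_div_pow (by omega), inv_mul_eq_div]
  rw [hlim]
  refine (tendsto_tsum_of_dominated_convergence (f := fun (t : ℝ) (d : ℕ) =>
      (μ d : ℝ) * ((pts S ((d : ℝ) * t)).ncard : ℝ) * t ^ n)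
    (bound := fun d => C * (1 / (d : ℝ) ^ n))
    ((Real.summable_one_div_nat_pow.2 (by omega)).mul_left C) (fun d => ?_) ?_).congr' ?_
  · rcases eq_or_ne d 0 with rfl | hd
    · simp
    have hd' : (0 : ℝ) < d := Nat.cast_pos.2 (Nat.pos_of_ne_zero hd)
    have hmul : Tendsto (fun t : ℝ => (d : ℝ) * t) (𝓝[>] 0) (𝓝[>] 0) := by
      refine tendsto_nhdsWithin_iff.2 ⟨?_, ?_⟩
      · exact ((continuous_const_mul (d : ℝ)).tendsto' 0 0 (mul_zero _)).mono_left
          nhdsWithin_le_nhds
      · filter_upwards [self_mem_nhdsWithin] with t ht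
        exact mul_pos hd' ht
    refine (((tendsto_pts (by omega) hS).comp hmul).const_mul ((μ d : ℝ) / (d : ℝ) ^ n)).congr
      fun t => ?_
    simp only [Function.comp_apply]
    field_simp
    ring
  · filter_upwards [self_mem_nhdsWithin] with t ht d
    have ht' : (0 : ℝ) < t := ht
    rcases eq_or_ne d 0 with rfl | hd
    · simp; positivity
    have hd' : (0 : ℝ) < d := Nat.cast_pos.2 (Nat.pos_of_ne_zero hd)
    have h := hC _ (mul_pos hd' ht')
    have hμ : |(μ d : ℝ)| ≤ 1 := by
      exact_mod_cast ArithmeticFunction.abs_moebius_le_one (n := d)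
    rw [Real.norm_eq_abs, mul_assoc, abs_mul,
      abs_of_nonneg (by positivity : (0 : ℝ) ≤ ((pts S ((d : ℝ) * t)).ncard : ℝ) * t ^ n)]
    refine (mul_le_of_le_one_left (by positivity) hμ).trans ?_
    rw [mul_one_div, le_div_iff₀ (by positivity)]
    rw [mul_pow] at h
    linarith
  · filter_upwards [self_mem_nhdsWithin] with t ht
    rw [tsum_mul_right, tsum_moebius_pts hS.bounded ht]

end FA.MinkowskiHlawka

end
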