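import Fermat.Agent.MinkowskiHlawka.Count
import Mathlib.Data.ZMod.Basic
import Mathlib.Analysis.SpecialFunctions.Pow.Real
import Mathlib.Data.Nat.Prime.Infinite

/-!
# The average over the congruence lattices

The lattices `z ≡ m u (mod p)`, `u ≠ 0`, share the points prime to `p` equally, so after scaling to
determinant one some lattice meets a symmetric star body of volume below `2 ζ n` only in `0`.
-/

set_option autoImplicit false

noncomputable section

open Filter Topology MeasureTheory Bornology Matrix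

namespace FA.MinkowskiHlawka

variable {n : ℕ} {p : ℕ}

/-- The residues of an integer vector. -/
def red (p : ℕ) (z : Fin n → ℤ) : Fin n → ZMod p := fun i => (z i : ZMod p)

/-- Some line meets at most the average of `F`. -/
theorem exists_line [Fact p.Prime] (hn : 1 ≤ n) (F : Finset (Fin n → ℤ))
    (hF : ∀ z ∈ F, red p z ≠ 0) :
    ∃ u : Fin n → ZMod p, u ≠ 0 ∧
      ((F.filter fun z => ∃ m : ZMod p, red p z = m • u).card : ℝ) * ((p : ℝ) ^ n - 1) ≤
        (F.card : ℝ) * ((p : ℝ) - 1) := by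
  classical
  set U : Finset (Fin n → ZMod p) := Finset.univ.erase 0
  have hUcard : U.card = p ^ n - 1 := by
    rw [Finset.card_erase_of_mem (Finset.mem_univ _), Finset.card_univ, Fintype.card_fun,
      ZMod.card, Fintype.card_fin]
  have hUne : U.Nonempty := by
    rw [← Finset.card_pos, hUcard]
    have : 2 ≤ p ^ n := (Fact.out : p.Prime).two_le.trans (Nat.le_self_pow (by omega) p)
    omega
  have hfib : ∀ z ∈ F, (U.filter fun u => ∃ m : ZMod p, red p z = m • u).card = p - 1 := by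
    intro z hz
    have hbij : (U.filter fun u => ∃ m : ZMod p, red p z = m • u) =
        ((Finset.univ : Finset (ZMod p)).erase 0).image fun m => m • red p z := by
      ext u
      simp only [U, Finset.mem_filter, Finset.mem_erase, Finset.mem_univ, and_true,
        Finset.mem_image]
      constructor
      · rintro ⟨-, m, hm⟩
        have hm0 : m ≠ 0 := fun h => hF z hz (by rw [hm, h, zero_smul])
        exact ⟨m⁻¹, inv_ne_zero hm0, by rw [hm, smul_smul, inv_mul_cancel₀ hm0, one_smul]⟩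
      · rintro ⟨m, hm, rfl⟩
        exact ⟨smul_ne_zero hm (hF z hz), m⁻¹, by
          rw [smul_smul, inv_mul_cancel₀ hm, one_smul]⟩
    rw [hbij, Finset.card_image_of_injective _ (fun a b h => smul_left_injective _ (hF z hz) h),
      Finset.card_erase_of_mem (Finset.mem_univ _), Finset.card_univ, ZMod.card]
  have hdouble : ∑ u ∈ U, (F.filter fun z => ∃ m : ZMod p, red p z = m • u).card =
      F.card * (p - 1) := by
    rw [Finset.sum_congr rfl fun u _ => Finset.card_filter _ F, Finset.sum_comm,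
      Finset.sum_congr rfl fun z hz => (Finset.card_filter _ U).symm.trans (hfib z hz),
      Finset.sum_const, smul_eq_mul]
  obtain ⟨u, hu, hmin⟩ := U.exists_min_image
    (fun u => (F.filter fun z => ∃ m : ZMod p, red p z = m • u).card) hUne
  refine ⟨u, (Finset.mem_erase.1 hu).1, ?_⟩
  have h := Finset.card_nsmul_le_sum U _ _ hmin
  rw [hdouble, hUcard, smul_eq_mul] at h
  have h1 : 1 ≤ p ^ n := Nat.one_le_pow _ _ (Fact.out : p.Prime).pos
  have h2 : 1 ≤ p := (Fact.out : p.Prime).pos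
  have h' := (Nat.cast_le (α := ℝ)).2 h
  push_cast [Nat.cast_sub h1, Nat.cast_sub h2] at h'
  linarith

/-- A basis of a congruence lattice. -/
theorem exists_basis [Fact p.Prime] {u : Fin n → ZMod p} (hu : u ≠ 0) :
    ∃ M : Matrix (Fin n) (Fin n) ℤ, M.det = (p : ℤ) ^ (n - 1) ∧
      ∀ z : Fin n → ℤ, ∃ m : ZMod p, red p (M *ᵥ z) = m • u := by
  obtain ⟨i₀, hi⟩ := Function.ne_iff.1 hu
  simp only [Pi.zero_apply] at hi
  set v : Fin n → ℤ := fun j => (((u i₀)⁻¹ * u j).val : ℤ)
  have hv : ∀ j, (v j : ZMod p) = (u i₀)⁻¹ * u j := fun j => by simp [v]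
  have hv0 : v i₀ = 1 := by
    have : Fact (1 < p) := ⟨(Fact.out : p.Prime).one_lt⟩
    show ((((u i₀)⁻¹ * u i₀).val : ℕ) : ℤ) = 1
    rw [inv_mul_cancel₀ hi, ZMod.val_one, Nat.cast_one]
  set U : Matrix (Fin n) (Fin n) ℤ := (1 : Matrix (Fin n) (Fin n) ℤ).updateCol i₀ v with hU
  set D : Matrix (Fin n) (Fin n) ℤ := diagonal fun j => if j = i₀ then 1 else (p : ℤ)
  refine ⟨U * D, ?_, fun z => ⟨(z i₀ : ZMod p) * (u i₀)⁻¹, funext fun j => ?_⟩⟩
  · have hUdet : U.det = 1 := by
      have e : v = fun k => ∑ i, v i • (1 : Matrix (Fin n) (Fin n) ℤ) k i := by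
        funext k
        simp [Matrix.one_apply]
      rw [hU, e, det_updateCol_sum, det_one, hv0, smul_eq_mul, mul_one]
    rw [det_mul, hUdet, one_mul, det_diagonal, ← Finset.mul_prod_erase _ _ (Finset.mem_univ i₀),
      if_pos rfl, one_mul, Finset.prod_congr rfl fun j hj => if_neg (Finset.mem_erase.1 hj).1,
      Finset.prod_const, Finset.card_erase_of_mem (Finset.mem_univ _), Finset.card_univ,
      Fintype.card_fin]
  · rw [Pi.smul_apply, smul_eq_mul, red, ← mulVec_mulVec]
    have hterm : ∀ k, (((U j k * (D *ᵥ z) k : ℤ)) : ZMod p) =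
        if k = i₀ then (v j : ZMod p) * z i₀ else 0 := fun k => by
      rcases eq_or_ne k i₀ with rfl | hk
      · simp [U, D, mulVec_diagonal]
      · simp [U, D, mulVec_diagonal, hk]
    show (((U *ᵥ (D *ᵥ z)) j : ℤ) : ZMod p) = _
    simp only [mulVec, dotProduct] at hterm ⊢
    rw [Int.cast_sum, Finset.sum_congr rfl fun k _ => hterm k, Finset.sum_ite_eq' Finset.univ i₀,
      if_pos (Finset.mem_univ _), hv]
    ring

/-- The scale making the congruence lattices of determinant one. -/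
def scaleFactor (n p : ℕ) : ℝ := (p : ℝ) ^ (-(((n : ℝ) - 1) / n))

theorem scaleFactor_pow (hn : 1 ≤ n) (p : ℕ) :
    scaleFactor n p ^ n = ((p : ℝ) ^ (n - 1))⁻¹ := by
  rw [scaleFactor, ← Real.rpow_mul_natCast (Nat.cast_nonneg p), neg_mul,
    div_mul_cancel₀ _ (Nat.cast_ne_zero.2 (by omega)), Real.rpow_neg (Nat.cast_nonneg p),
    show ((n : ℝ) - 1) = ((n - 1 : ℕ) : ℝ) by rw [Nat.cast_sub hn]; simp, Real.rpow_natCast]

theorem tendsto_scaleFactor (hn : 2 ≤ n) :
    Tendsto (scaleFactor n) atTop (𝓝[>] 0) := by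
  refine tendsto_nhdsWithin_iff.2 ⟨?_, ?_⟩
  · refine (tendsto_rpow_neg_atTop (div_pos ?_ ?_)).comp tendsto_natCast_atTop_atTop
    · have : (2 : ℝ) ≤ n := by exact_mod_cast hn
      linarith
    · exact Nat.cast_pos.2 (by omega)
  · filter_upwards [eventually_gt_atTop 0] with p hp
    exact Real.rpow_pos_of_pos (Nat.cast_pos.2 hp) _

theorem castVec_mulVec (M : Matrix (Fin n) (Fin n) ℤ) (z : Fin n → ℤ) :
    castVec (M *ᵥ z) = M.map (Int.castRingHom ℝ) *ᵥ castVec z := by
  funext i
  simp [castVec, mulVec, dotProduct]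

/-- **Minkowski and Hlawka.** -/
theorem exists_admissible {S : Set (Fin n → ℝ)} (hn : 2 ≤ n) (hS : IsStarBody S)
    (hsymm : ∀ x ∈ S, -x ∈ S) (hvol : volume.real S < 2 * zetaNat n) :
    ∃ B : Matrix (Fin n) (Fin n) ℝ, |B.det| = 1 ∧
      ∀ z : Fin n → ℤ, z ≠ 0 → B *ᵥ castVec z ∉ S := by
  classical
  obtain ⟨R, hR⟩ := hS.bounded.exists_norm_le
  have hζ := zetaNat_pos (n := n) (by omega)
  have hv2 : volume.real S / zetaNat n < 2 := (div_lt_iff₀ hζ).2 hvol
  have hinv : Tendsto (fun p : ℕ => ((p : ℝ))⁻¹) atTop (𝓝 0) := tendsto_inv_atTop_nhds_zero_nat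
  have hfac : Tendsto (fun p : ℕ => ((prim S (scaleFactor n p)).ncard : ℝ) * scaleFactor n p ^ n *
      ((1 - (p : ℝ)⁻¹) / (1 - ((p : ℝ)⁻¹) ^ n))) atTop (𝓝 (volume.real S / zetaNat n)) := by
    have h2 : Tendsto (fun p : ℕ => (1 - (p : ℝ)⁻¹) / (1 - ((p : ℝ)⁻¹) ^ n)) atTop (𝓝 1) := by
      have := (hinv.const_sub 1).div ((hinv.pow n).const_sub 1)
        (by simp [zero_pow (by omega : n ≠ 0)])
      simpa [zero_pow (by omega : n ≠ 0), Pi.div_def] using this
    simpa using ((tendsto_prim hn hS).comp (tendsto_scaleFactor hn)).mul h2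
  have hsmall : Tendsto (fun p : ℕ => |R| / (scaleFactor n p * p)) atTop (𝓝 0) := by
    have e : ∀ p : ℕ, 0 < p → scaleFactor n p * p = (p : ℝ) ^ ((n : ℝ)⁻¹) := fun p hp => by
      rw [scaleFactor, ← Real.rpow_add_one (Nat.cast_ne_zero.2 hp.ne')]
      congr 1
      have : (n : ℝ) ≠ 0 := Nat.cast_ne_zero.2 (by omega)
      field_simp
      ring
    have h := (tendsto_inv_atTop_zero.comp ((tendsto_rpow_atTop (inv_pos.2 (Nat.cast_pos.2
      (by omega : 0 < n)) : (0 : ℝ) < (n : ℝ)⁻¹)).comp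
        tendsto_natCast_atTop_atTop)).const_mul |R|
    rw [mul_zero] at h
    refine h.congr' ?_
    filter_upwards [eventually_gt_atTop 0] with p hp
    rw [Function.comp_apply, Function.comp_apply, e p hp, div_eq_mul_inv]
  obtain ⟨p, hp, hgood, hlarge⟩ : ∃ p : ℕ, p.Prime ∧
      ((prim S (scaleFactor n p)).ncard : ℝ) * scaleFactor n p ^ n *
        ((1 - (p : ℝ)⁻¹) / (1 - ((p : ℝ)⁻¹) ^ n)) < 2 ∧ |R| / (scaleFactor n p * p) < 1 := by
    obtain ⟨N, hN⟩ := eventually_atTop.1
      ((hfac.eventually (gt_mem_nhds hv2)).and (hsmall.eventually (gt_mem_nhds one_pos)))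
    obtain ⟨p, hpN, hp⟩ := Nat.exists_infinite_primes N
    exact ⟨p, hp, hN p hpN⟩
  have : Fact p.Prime := ⟨hp⟩
  set c := scaleFactor n p
  have hc : 0 < c := Real.rpow_pos_of_pos (Nat.cast_pos.2 hp.pos) _
  have hpR : (0 : ℝ) < p := Nat.cast_pos.2 hp.pos
  have hcoord : ∀ z : Fin n → ℤ, c • castVec z ∈ S → ∀ i, (z i).natAbs < p := fun z hz i => by
    have h := (abs_coord_le hR hc hz i).trans ((div_le_div_iff_of_pos_right hc).2 (le_abs_self R))
    rw [div_lt_one (mul_pos hc hpR)] at hlarge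
    have h' : |(z i : ℝ)| < p := h.trans_lt ((div_lt_iff₀ hc).2 (by linarith))
    rw [← Nat.cast_lt (α := ℝ), Nat.cast_natAbs, Int.cast_abs]
    exact h'
  have hfin : (prim S c).Finite := (pts_finite hS.bounded hc).subset (prim_subset S c)
  obtain ⟨u, hu, hcount⟩ := exists_line (p := p) (by omega : 1 ≤ n) hfin.toFinset fun z hz h => by
    rw [Set.Finite.mem_toFinset] at hz
    refine one_ne_zero (α := ℕ) (hz.1.symm.trans (content_eq_zero.2 (funext fun i => ?_)))
    have h0 := (ZMod.intCast_zmod_eq_zero_iff_dvd _ _).1 (congrFun h i)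
    exact Int.natAbs_eq_zero.1 (Nat.eq_zero_of_dvd_of_lt (Int.natCast_dvd.1 h0) (hcoord z hz.2 i))
  set G := hfin.toFinset.filter fun z => ∃ m : ZMod p, red p z = m • u with hG
  have hlt : G.card < 2 := by
    have hp1 : (1 : ℝ) < (p : ℝ) ^ n :=
      one_lt_pow₀ (by exact_mod_cast hp.one_lt) (by omega)
    rw [← Set.ncard_eq_toFinset_card _ hfin] at hcount
    have e : ((p : ℝ) - 1) / ((p : ℝ) ^ n - 1) =
        c ^ n * ((1 - (p : ℝ)⁻¹) / (1 - ((p : ℝ)⁻¹) ^ n)) := by
      have hne : (p : ℝ) ^ n - 1 ≠ 0 := by linarith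
      have hpn : (p : ℝ) ^ n = (p : ℝ) ^ (n - 1) * p := by
        rw [← pow_succ, Nat.sub_add_cancel (by omega : 1 ≤ n)]
      rw [scaleFactor_pow (by omega) p, inv_pow]
      field_simp
      rw [hpn]
      ring
    rw [mul_assoc, ← e, ← mul_div_assoc] at hgood
    rw [← Nat.cast_lt (α := ℝ), Nat.cast_ofNat]
    exact lt_of_le_of_lt ((le_div_iff₀ (by linarith)).2 hcount) hgood
  have hG0 : ∀ w, content w = 1 → c • castVec w ∈ S → (¬ ∃ m : ZMod p, red p w = m • u) := by
    intro w h1 h2 h3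
    have hw : w ∈ G := Finset.mem_filter.2 ⟨hfin.mem_toFinset.2 ⟨h1, h2⟩, h3⟩
    have hw' : -w ∈ G := by
      refine Finset.mem_filter.2 ⟨hfin.mem_toFinset.2 ⟨?_, ?_⟩, ?_⟩
      · simpa [content] using h1
      · have e : castVec (-w) = -castVec w := funext fun i => by simp [castVec]
        rw [e, smul_neg]
        exact hsymm _ h2
      · obtain ⟨m, hm⟩ := h3
        exact ⟨-m, by rw [neg_smul, ← hm]; funext i; simp [red]⟩
    have hne : w ≠ -w := fun h => by
      have h0 : w = 0 := funext fun i => by have := congrFun h i; simp at this ⊢; omega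
      simp [h0, content_eq_zero.2 rfl] at h1
    have := Finset.card_le_card (show {w, -w} ⊆ G by simp [Finset.insert_subset_iff, hw, hw'])
    rw [Finset.card_pair hne] at this
    omega
  obtain ⟨M, hdet, hM⟩ := exists_basis hu
  refine ⟨c • M.map (Int.castRingHom ℝ), ?_, fun z hz hmem => ?_⟩
  · rw [Matrix.det_smul, Fintype.card_fin, ← RingHom.mapMatrix_apply, ← RingHom.map_det, hdet]
    simp only [eq_intCast, Int.cast_pow, Int.cast_natCast]
    rw [scaleFactor_pow (by omega) p, inv_mul_cancel₀ (pow_ne_zero _ hpR.ne'), abs_one]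
  · rw [Matrix.smul_mulVec, ← castVec_mulVec] at hmem
    obtain ⟨m, hm⟩ := hM z
    set y := M *ᵥ z
    have hy : y ≠ 0 := fun h => hz (Matrix.eq_zero_of_mulVec_eq_zero (by
      rw [hdet]; exact pow_ne_zero _ (Int.natCast_ne_zero.2 hp.ne_zero)) h)
    have hg0 : content y ≠ 0 := fun h => hy (content_eq_zero.1 h)
    choose w hw using dvd_content_iff.1 (dvd_refl (content y))
    obtain ⟨i, hi⟩ := Function.ne_iff.1 hy
    simp only [Pi.zero_apply] at hi
    have hgp : content y < p := by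
      refine lt_of_le_of_lt (Nat.le_of_dvd (Int.natAbs_pos.2 hi) ?_) (hcoord y hmem i)
      exact Int.natCast_dvd.1 (dvd_content_iff.1 dvd_rfl i)
    refine hG0 w ?_ ?_ ⟨((content y : ℕ) : ZMod p)⁻¹ * m, ?_⟩
    · have h : content y * content w ∣ content y := dvd_content_iff.2 fun j => by
        rw [hw j]
        push_cast
        exact mul_dvd_mul_left _ (dvd_content_iff.1 dvd_rfl j)
      obtain ⟨k, hk⟩ := h
      exact Nat.eq_one_of_mul_eq_one_right (m := content w) (n := k)
        (Nat.eq_of_mul_eq_mul_left (Nat.pos_of_ne_zero hg0) (by rw [← mul_assoc, ← hk, mul_one]))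
    · have hgR : (0 : ℝ) < content y := Nat.cast_pos.2 (Nat.pos_of_ne_zero hg0)
      have e : c • castVec w = ((content y : ℝ))⁻¹ • (c • castVec y) := funext fun j => by
        simp only [Pi.smul_apply, smul_eq_mul, castVec, hw j]
        push_cast
        field_simp
      rw [e]
      exact hS.star _ hmem _ (inv_pos.2 hgR)
        (inv_le_one_of_one_le₀ (by exact_mod_cast Nat.pos_of_ne_zero hg0))
    · have hgz : ((content y : ℕ) : ZMod p) ≠ 0 := fun h =>
        (Nat.le_of_dvd (Nat.pos_of_ne_zero hg0) ((ZMod.natCast_eq_zero_iff _ _).1 h)).not_gt hgp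
      funext j
      have h := congrFun hm j
      simp only [red, Pi.smul_apply, smul_eq_mul] at h ⊢
      rw [hw j] at h
      push_cast at h
      rw [mul_assoc, ← h, inv_mul_cancel_left₀ hgz]

end FA.MinkowskiHlawka

end
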